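import Mathlib
import Fermat.Agent.FF.IntRR
import Fermat.Agent.FF.IntL
import Fermat.Agent.G.Red.Spec
import Fermat.Agent.S05.Inertia

/-!
# Program FF (S19), leaf B4 (instantiation of the integral model for `X₀(M)`), Galois part

Owner: helper27.  Prefix `ffig`.

* `ffigRho M A` : the inertia group `I = A.inertiaSubgroupIn ℚ` acting on `F = F_ℚ̄(M)` through the
  Prelude's `arithmeticGalois` (coefficientwise action on `q`-expansions);
* `ffig_base_mem`, `ffig_base_res` : `I` preserves `A` and acts trivially on the residue field;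
* `ffil_polar_smul`, `ffig_Dinf_fixed` : the polar divisor of a `ℚ`-rational chart coordinate is
  fixed by the whole Galois group;
* `ffig_onto` : the `onto` field of helper26's `FfirModel` (lifts fixed by `I`) from
  (ONTO at chart level) + (the lattice is `⊕ A b_i` with Galois-fixed `b_i`) + (`W = A^I → k` onto).
-/

set_option autoImplicit false
set_option linter.unusedSectionVars false
set_option linter.unusedVariables false
set_option linter.style.haveILetI false

noncomputable section

namespace Fermat.Agent.FF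

open AlgebraicCurve ModularCurve IsLocalRing Fermat.Agent.G Fermat.Agent.S24 Fermat.Agent.S18

/-! ### generalities on the polar divisor under semilinear automorphisms -/

section General

variable {K F : Type*} [Field K] [Field F] [Algebra K F]

/-- the polar divisor of a function fixed by `g` is fixed by `g`. -/
theorem ffil_polar_smul {u : F} (hs : IsSepGen K u) (g : SemilinearAut K F) (hgu : g • u = u) :
    g • ffilPolar hs = ffilPolar hs := by
  ext w
  rw [SemilinearAut.divisor_smul_apply, ffilPolar_apply, ffilPolar_apply]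
  have hinv : g⁻¹ • u = u := by
    rw [inv_smul_eq_iff, hgu]
  have h := SemilinearAut.ord_smul g⁻¹ w u
  rw [hinv] at h
  rw [h]

end General

/-! ### the inertia group acting on `F_ℚ̄(M)` -/

section Inertia

variable (M : ℕ) [NeZero M] (A : ValuationSubring (AlgebraicClosure ℚ))

/-- **the inertia group acting on `F_ℚ̄(M)`** (coefficientwise on `q`-expansions). -/
def ffigRho : ↥(A.inertiaSubgroupIn ℚ) →*
    SemilinearAut (AlgebraicClosure ℚ) (modularFunctionFieldBar M) :=
  (arithmeticGalois (modularFunctionFieldFull M)).comp (A.inertiaSubgroupIn ℚ).subtype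

theorem ffigRho_apply (σ : ↥(A.inertiaSubgroupIn ℚ)) :
    ffigRho M A σ = arithmeticGalois (modularFunctionFieldFull M) (σ : _ ≃ₐ[ℚ] _) := rfl

theorem ffig_baseAut (σ : ↥(A.inertiaSubgroupIn ℚ)) (a : AlgebraicClosure ℚ) :
    SemilinearAut.baseAut (ffigRho M A σ) a = (σ : AlgebraicClosure ℚ ≃ₐ[ℚ] AlgebraicClosure ℚ) a :=
  rfl

/-- `I` preserves `A`. -/
theorem ffig_base_mem (σ : ↥(A.inertiaSubgroupIn ℚ)) (a : AlgebraicClosure ℚ) (ha : a ∈ A) :
    SemilinearAut.baseAut (ffigRho M A σ) a ∈ A := by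
  rw [ffig_baseAut]
  exact ((Fermat.Agent.S05.isInertial_of_mem_inertiaSubgroupIn A σ.1 σ.2).mem_iff a).2 ha

/-- `I` acts trivially on the residue field. -/
theorem ffig_base_res (σ : ↥(A.inertiaSubgroupIn ℚ)) (a : A) :
    residue A ⟨SemilinearAut.baseAut (ffigRho M A σ) (a : AlgebraicClosure ℚ),
      ffig_base_mem M A σ a a.2⟩ = residue A a := by
  have h := (Fermat.Agent.S05.isInertial_of_mem_inertiaSubgroupIn A σ.1 σ.2).sub_mem a a.2
  rw [← sub_eq_zero, ← map_sub, residue_eq_zero_iff]
  exact (ValuationSubring.coe_mem_nonunits_iff (A := A)).mp h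

/-- a chart coordinate with integer coefficients is fixed by the whole Galois group. -/
theorem ffig_smul_grdQ {υ : LaurentSeries ℤ} (hυ : GrdSerMem M υ)
    (σ : AlgebraicClosure ℚ ≃ₐ[ℚ] AlgebraicClosure ℚ) :
    arithmeticGalois (modularFunctionFieldFull M) σ • grdQ M hυ = grdQ M hυ := by
  apply Subtype.ext
  rw [coe_arithmeticGalois_smul]
  exact grdSer_coeffMap υ _

/-- **the polar divisor of the chart coordinate is Galois-fixed.** -/
theorem ffig_Dinf_fixed {υ : LaurentSeries ℤ} (hυ : GrdSerMem M υ)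
    (hs : IsSepGen (AlgebraicClosure ℚ) (grdQ M hυ)) (σ : ↥(A.inertiaSubgroupIn ℚ)) :
    ffigRho M A σ • ffilPolar hs = ffilPolar hs :=
  ffil_polar_smul hs _ (ffig_smul_grdQ M hυ σ.1)

end Inertia

/-! ### the `onto` field with fixed lifts, abstractly -/

section OntoAbs

open Module

variable {K : Type*} [Field K] {A : ValuationSubring K}
variable {F : Type*} [Field F] [Algebra K F]
variable {Fk : Type*} [Field Fk] [Algebra (ResidueField A) Fk]
variable {O : Subring F} {red : O →+* Fk} {G : Type*} [Group G]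

/-- **fixed lifts**: if `V ∩ O = ⊕ A b_i` with `G`-fixed `b_i` and every residue class of `A` has a
`G`-fixed representative, then every `x ∈ V ∩ O` can be replaced by a `G`-fixed `x' ∈ V ∩ O` with
the same reduction. -/
theorem ffig_fixed_lift (h : FfirRed A O red) (ρ : G →* SemilinearAut K F) (V : Submodule K F)
    {n : ℕ} (b : Fin n → O) (hbV : ∀ i, ((b i : O) : F) ∈ V)
    (hbfix : ∀ i (σ : G), ρ σ • ((b i : O) : F) = b i)
    (hspan : ∀ x : O, ((x : O) : F) ∈ V → ∃ a : Fin n → A, x = ∑ i, ffirC h (a i) * b i)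
    (hW : ∀ a : A, ∃ w : A, (∀ σ : G, SemilinearAut.baseAut (ρ σ) (w : K) = w) ∧
      residue A w = residue A a)
    (x : O) (hx : ((x : O) : F) ∈ V) :
    ∃ x' : O, ((x' : O) : F) ∈ V ∧ red x' = red x ∧ ∀ σ : G, ρ σ • ((x' : O) : F) = x' := by
  classical
  obtain ⟨a, ha⟩ := hspan x hx
  choose w hwfix hwres using hW
  refine ⟨∑ i, ffirC h (w (a i)) * b i, ?_, ?_, fun σ => ?_⟩
  · push_cast
    refine Submodule.sum_mem _ (fun i _ => ?_)
    rw [ffirC_coe, ← Algebra.smul_def]
    exact Submodule.smul_mem _ _ (hbV i)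
  · rw [ha, ffir_red_sum, ffir_red_sum]
    exact Finset.sum_congr rfl (fun i _ => by rw [hwres])
  · push_cast
    rw [Finset.smul_sum]
    refine Finset.sum_congr rfl (fun i _ => ?_)
    rw [smul_mul', hbfix i σ, ffirC_coe, SemilinearAut.smul_algebraMap, hwfix]

end OntoAbs

/-! ### the `onto` field for `X₀(M)` -/

section OntoMod

variable (M : ℕ) [NeZero M] (A : ValuationSubring (AlgebraicClosure ℚ))
variable {τ τ' : LaurentSeries ℤ}

/-- **the `onto` field of `FfirModel` for `X₀(M)`**, from: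
* `honto` : chart-level ONTO at level `m` (helper5 `ffio_onto` + helper17 `fflr_lattice_iff`);
* `hpolar` : `r_* D_∞ = D̃_∞` (helper17 `fflr_mapDomain_polar`);
* `hrat` : `L(m D_∞) ∩ grdO = ⊕ A b_i` with Galois-fixed `b_i` (helper12 RAT-gen);
* `hW` : every residue class has an inertia-fixed representative (helper19). -/
theorem ffig_onto (hat : GrdAtlas M A τ τ')
    (r : Place (AlgebraicClosure ℚ) (modularFunctionFieldBar M) →
      Place (ResidueField A) (modularFunctionFieldFullC (ResidueField A) M))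
    (hRed : FfirRed A (grdO M A) (grdRed M A))
    (hpolar : Finsupp.mapDomain r (ffilPolar hat.c.sepQ) = ffilPolar hat.c.sepK)
    (m : ℕ)
    (honto : ∀ c : modularFunctionFieldFullC (ResidueField A) M,
      c ∈ intRing (ResidueField A) (grdK M A hat.c.mem) →
      c * grdK M A hat.c'.mem ^ m ∈ intRing (ResidueField A) (grdK M A hat.c'.mem) →
      ∃ x : ↥(grdO M A), ((x : ↥(grdO M A)) : modularFunctionFieldBar M) ∈
        riemannRochSpace (m • ffilPolar hat.c.sepQ) ∧ grdRed M A x = c)
    (hrat : ∃ (n : ℕ) (b : Fin n → ↥(grdO M A)),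
      (∀ i, ((b i : ↥(grdO M A)) : modularFunctionFieldBar M) ∈
        riemannRochSpace (m • ffilPolar hat.c.sepQ)) ∧
      (∀ i (σ : ↥(A.inertiaSubgroupIn ℚ)),
        ffigRho M A σ • ((b i : ↥(grdO M A)) : modularFunctionFieldBar M) = b i) ∧
      ∀ x : ↥(grdO M A), ((x : ↥(grdO M A)) : modularFunctionFieldBar M) ∈
        riemannRochSpace (m • ffilPolar hat.c.sepQ) →
        ∃ a : Fin n → A, x = ∑ i, ffirC hRed (a i) * b i)
    (hW : ∀ a : A, ∃ w : A, (∀ σ ∈ A.inertiaSubgroupIn ℚ, σ (w : AlgebraicClosure ℚ) = w) ∧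
      residue A w = residue A a) :
    ∀ c ∈ riemannRochSpace (m • Finsupp.mapDomain r (ffilPolar hat.c.sepQ)),
      ∃ x : ↥(grdO M A), ((x : ↥(grdO M A)) : modularFunctionFieldBar M) ∈
          riemannRochSpace (m • ffilPolar hat.c.sepQ) ∧ grdRed M A x = c ∧
        ∀ σ : ↥(A.inertiaSubgroupIn ℚ),
          ffigRho M A σ • ((x : ↥(grdO M A)) : modularFunctionFieldBar M) = x := by
  intro c hc
  rw [hpolar, ← natCast_zsmul, ffil_mem_rr_iff hat.c.sepK (grda_grdK_mul M A hat) m c] at hc
  obtain ⟨x, hxL, hxc⟩ := honto c hc.1 hc.2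
  obtain ⟨n, b, hbV, hbfix, hspan⟩ := hrat
  obtain ⟨x', hx'L, hx'red, hx'fix⟩ := ffig_fixed_lift hRed (ffigRho M A)
    (riemannRochSpace (m • ffilPolar hat.c.sepQ)) b hbV hbfix hspan
    (fun a => by
      obtain ⟨w, hw, hwa⟩ := hW a
      exact ⟨w, fun σ => hw σ.1 σ.2, hwa⟩) x hxL
  exact ⟨x', hx'L, hx'red.trans hxc, hx'fix⟩

end OntoMod

end Fermat.Agent.FF
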