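import Mathlib
import Fermat.Agent.FF.IntInst.Gal
import Fermat.Agent.FF.InertiaW

/-!
# Program FF (S19), leaf B4: the fixed ring of the model is helper19's `ffW 𝔸 I`

Owner: helper27.  Prefix `ffii`.

`ffirFix A (ffigRho M A)` (helper26's ring of `ρ`-fixed elements of `A`, the base ring `W` of the
core) IS `ffW A I` (helper19's `𝔸 ∩ ℚ̄^I`), `I = A.inertiaSubgroupIn ℚ` :
* `ffii_fix_eq`   : equality of subrings of `ℚ̄`;
* `ffii_fix_hW`   : the hypothesis `hW` of helper13's `fffi_model` for `W := ↥(ffW A I)`;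
* `ffii_fix_coe`  : conversely every `w : ↥(ffW A I)` is fixed.
-/

set_option autoImplicit false
set_option linter.unusedSectionVars false
set_option linter.unusedVariables false

noncomputable section

namespace Fermat.Agent.FF

open AlgebraicCurve ModularCurve IsLocalRing

variable (M : ℕ) [NeZero M] (A : ValuationSubring (AlgebraicClosure ℚ))

theorem ffii_mem_fix_iff {a : AlgebraicClosure ℚ} :
    a ∈ ffirFix A (ffigRho M A) ↔ a ∈ ffW A (A.inertiaSubgroupIn ℚ) := by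
  rw [mem_ffirFix, mem_ffW]
  constructor
  · rintro ⟨ha, h⟩
    exact ⟨ha, fun σ hσ => h ⟨σ, hσ⟩⟩
  · rintro ⟨ha, h⟩
    exact ⟨ha, fun σ => h σ.1 σ.2⟩

/-- the fixed ring of the model is `ffW A I`. -/
theorem ffii_fix_eq : ffirFix A (ffigRho M A) = ffW A (A.inertiaSubgroupIn ℚ) :=
  Subring.ext fun _ => ffii_mem_fix_iff M A

/-- **`hW` of `fffi_model`** for `W := ↥(ffW A I)`. -/
theorem ffii_fix_hW (a : AlgebraicClosure ℚ) (ha : a ∈ ffirFix A (ffigRho M A)) :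
    ∃ w : ↥(ffW A (A.inertiaSubgroupIn ℚ)),
      ((algebraMap ↥(ffW A (A.inertiaSubgroupIn ℚ)) ↥A w : ↥A) : AlgebraicClosure ℚ) = a :=
  ⟨⟨a, (ffii_mem_fix_iff M A).1 ha⟩, rfl⟩

/-- every element of `ffW A I` is fixed by the model's group. -/
theorem ffii_fix_coe (w : ↥(ffW A (A.inertiaSubgroupIn ℚ))) (σ : ↥(A.inertiaSubgroupIn ℚ)) :
    SemilinearAut.baseAut (ffigRho M A σ)
      ((algebraMap ↥(ffW A (A.inertiaSubgroupIn ℚ)) ↥A w : ↥A) : AlgebraicClosure ℚ) =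
      ((algebraMap ↥(ffW A (A.inertiaSubgroupIn ℚ)) ↥A w : ↥A) : AlgebraicClosure ℚ) :=
  w.2.2 σ.1 σ.2

theorem ffii_fix_coe_mem (w : ↥(ffW A (A.inertiaSubgroupIn ℚ))) :
    ((algebraMap ↥(ffW A (A.inertiaSubgroupIn ℚ)) ↥A w : ↥A) : AlgebraicClosure ℚ) ∈
      ffirFix A (ffigRho M A) :=
  (ffii_mem_fix_iff M A).2 w.2

end Fermat.Agent.FF
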