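import Mathlib
import Fermat.Agent.FF.IntPts
import Fermat.Agent.FF.IntOnto
import Fermat.Agent.S24.PlacesDict

/-!
# Program FF, leaf B4, field `lift_place` for EVERY place `Q` of the special fibre

Owner: helper5.  Namespace `Fermat.Agent.FF`, prefix `ffla`.

Every place `Q` of `F_k(M)` (including the cusps and the finitely many points where the chart
coordinate is ramified) is `r P` for a place `P` of `F_ℚ̄(M)` fixed by the inertia group.

Input: `onto` WITH its inertia-fixed clause, in chart-ring form (`FflaOnto`): every element of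
`L~_m = C_ū ∩ ū^m C_ū'` lifts to an inertia-FIXED element of `Λ_m = B_u ∩ u^m B_u'` (`m ≥ m₀`).
Proof: a uniformiser `c` of the Dedekind domain `C_ū` at `Q` lies in `L~_m` for `m ≫ 0`; lift it
to a fixed `t₀ ∈ B_u`; then the unique place `P` over `Q` with `t₀(P) = 0` (helper6's residue disc
`ffip_disc`) is fixed by uniqueness (`ffip_disc_fixed`).  At a cusp use the swapped atlas and
`t₀ := x · u'^m`.
-/

set_option autoImplicit false
set_option linter.unusedSectionVars false
set_option linter.unusedVariables false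
set_option synthInstance.maxHeartbeats 400000

noncomputable section

namespace Fermat.Agent.FF

open ModularCurve AlgebraicCurve IsLocalRing Polynomial Fermat.Agent.S18 Fermat.Agent.S24
  Fermat.Agent.G Fermat.Agent.S05 WithZero

/-! ### a uniformiser in the chart ring -/

section Unif

variable {K F : Type*} [Field K] [Field F] [Algebra K F] {t : F}

theorem ffla_exists_unif (ht : IsSepGen K t) (v : Place K F) (hv : t ∈ v.toValuationSubring) :
    ∃ c : F, c ∈ intRing K t ∧ v.ord c = 1 := by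
  have : Fact (IsSepGen K t) := ⟨ht⟩
  have := intRing_isDedekindDomain ht
  have := intRing_isFractionRing ht
  obtain ⟨w, rfl⟩ := exists_eq_ofHeightOneSpectrum_intRing v hv
  obtain ⟨π, hπ⟩ := w.intValuation_exists_uniformizer
  refine ⟨algebraMap (intRing K t) F π, π.2, ?_⟩
  rw [ord_ofHeightOneSpectrum, IsDedekindDomain.HeightOneSpectrum.valuation_of_algebraMap, hπ,
    log_exp]
  simp

end Unif

/-! ### the lifting theorem -/

section Lift

variable (M : ℕ) [NeZero M] {ℓ : ℕ} [Fact ℓ.Prime]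
variable (A : ValuationSubring (AlgebraicClosure ℚ))
variable {τ τ' : LaurentSeries ℤ}

/-- `onto` with its inertia-fixed clause, in chart-ring form: for `m ≥ m₀` every element of
`L~_m = C_ū ∩ ū^m C_ū'` is the reduction of an inertia-FIXED element of `Λ_m = B_u ∩ u^m B_u'`. -/
def FflaOnto (hat : GrdAtlas M A τ τ') : Prop :=
  ∃ m₀ : ℕ, ∀ m ≥ m₀, ∀ c : modularFunctionFieldFullC (ResidueField A) M,
    c ∈ intRing (ResidueField A) (grdK M A hat.c.mem) →
    c * grdK M A hat.c'.mem ^ m ∈ intRing (ResidueField A) (grdK M A hat.c'.mem) →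
    ∃ x : ↥(grdO M A), GrdIsInt M A (grdQ M hat.c.mem) (x : modularFunctionFieldBar M) ∧
      GrdIsInt M A (grdQ M hat.c'.mem)
        ((x : modularFunctionFieldBar M) * grdQ M hat.c'.mem ^ m) ∧
      grdRed M A x = c ∧
      ∀ σ : AlgebraicClosure ℚ ≃ₐ[ℚ] AlgebraicClosure ℚ, σ ∈ A.inertiaSubgroupIn ℚ →
        ffipG M σ • (x : modularFunctionFieldBar M) = x

/-- places in the chart `ū` -/
theorem ffla_lift_chart (hℓM : ¬ ℓ ∣ M) (hA : A.LiesOverPrime ℓ) (hat : GrdAtlas M A τ τ')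
    (r : Place (AlgebraicClosure ℚ) (modularFunctionFieldBar M) →
      Place (ResidueField A) (modularFunctionFieldFullC (ResidueField A) M))
    (hr : GrdIsRed M A hat.c.mem hat.c'.mem r)
    (Q : Place (ResidueField A) (modularFunctionFieldFullC (ResidueField A) M))
    (hQ : grdK M A hat.c.mem ∈ Q.toValuationSubring)
    (t₀ : ↥(grdO M A)) (ht₀ : GrdIsInt M A (grdQ M hat.c.mem) (t₀ : modularFunctionFieldBar M))
    (hord : Q.ord (grdRed M A t₀) = 1)
    (hfix : ∀ σ : AlgebraicClosure ℚ ≃ₐ[ℚ] AlgebraicClosure ℚ, σ ∈ A.inertiaSubgroupIn ℚ →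
      ffipG M σ • (t₀ : modularFunctionFieldBar M) = t₀) :
    ∃ P, r P = Q ∧ ∀ σ : AlgebraicClosure ℚ ≃ₐ[ℚ] AlgebraicClosure ℚ,
      σ ∈ A.inertiaSubgroupIn ℚ → ffipG M σ • P = P := by
  have hord' : Q.ord (grdRed M A t₀ - algebraMap (ResidueField A)
      (modularFunctionFieldFullC (ResidueField A) M) (residue A (0 : A))) = 1 := by
    rw [map_zero, map_zero, sub_zero]; exact hord
  obtain ⟨P, ⟨hPQ, hval⟩, -⟩ := ffip_disc M A hℓM hA hat r hr Q hQ t₀ ht₀ 0 hord'
  refine ⟨P, hPQ, fun σ hσ => ?_⟩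
  exact ffip_disc_fixed M hℓM hA hat r hr (isInertial_of_mem_inertiaSubgroupIn A σ hσ) Q hQ t₀ ht₀ 0
    hord' (hfix σ hσ) (by simp) P hPQ hval

end Lift

section Main

variable (M : ℕ) [NeZero M] {ℓ : ℕ} [Fact ℓ.Prime]
variable (A : ValuationSubring (AlgebraicClosure ℚ))
variable {τ τ' : LaurentSeries ℤ}

/-- `c ∈ C_ū ⟹ c · ū'^m ∈ C_ū'` for `m ≫ 0` -/
theorem ffla_pow_mem {k F : Type*} [Field k] [Field F] [Algebra k F] {u u' : F} (huu' : u * u' = 1)
    {c : F} (hc : c ∈ intRing k u) : ∃ d : ℕ, ∀ m ≥ d, c * u' ^ m ∈ intRing k u' := by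
  have h1 := ffio_isIntegralElem_of_isIntegral (R := k) u c ((mem_integralClosure_iff _ _).1 hc)
  have hu'u : u' * u = 1 := by rw [mul_comm]; exact huu'
  obtain ⟨n, hn⟩ := grda_isIntegralElem_pow_mul (algebraMap k F) u' u hu'u c h1
  have hn' : u' ^ n * c ∈ intRing k u' :=
    (mem_integralClosure_iff _ _).2 (ffio_isIntegral_of_isIntegralElem _ _ hn)
  refine ⟨n, fun m hm => ?_⟩
  have e : c * u' ^ m = u' ^ (m - n) * (u' ^ n * c) := by
    rw [← mul_assoc, ← pow_add, Nat.sub_add_cancel hm, mul_comm]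
  rw [e]
  exact (intRing k u').mul_mem ((intRing k u').pow_mem (ffio_self_mem u') _) hn'

/-- **`lift_place` for EVERY `Q`** : every place of the special fibre is the reduction of an
inertia-fixed place of the generic fibre. -/
theorem ffla_lift_place (hℓM : ¬ ℓ ∣ M) (hA : A.LiesOverPrime ℓ) (hat : GrdAtlas M A τ τ')
    (r : Place (AlgebraicClosure ℚ) (modularFunctionFieldBar M) →
      Place (ResidueField A) (modularFunctionFieldFullC (ResidueField A) M))
    (hr : GrdIsRed M A hat.c.mem hat.c'.mem r) (honto : FflaOnto M A hat)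
    (Q : Place (ResidueField A) (modularFunctionFieldFullC (ResidueField A) M)) :
    ∃ P, r P = Q ∧ ∀ σ : AlgebraicClosure ℚ ≃ₐ[ℚ] AlgebraicClosure ℚ,
      σ ∈ A.inertiaSubgroupIn ℚ → ffipG M σ • P = P := by
  obtain ⟨m₀, hm₀⟩ := honto
  have hKK' := grda_grdK_mul M A hat
  have hQQ' := grda_grdQ_mul M A hat
  by_cases hQ : grdK M A hat.c.mem ∈ Q.toValuationSubring
  · -- `Q` in the chart `ū`
    obtain ⟨c, hc, hcord⟩ := ffla_exists_unif hat.c.sepK Q hQ
    obtain ⟨d, hd⟩ := ffla_pow_mem hKK' hc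
    obtain ⟨x, hx, -, hxc, hxfix⟩ := hm₀ (max d m₀) (le_max_right _ _) c hc
      (hd _ (le_max_left _ _))
    exact ffla_lift_chart M A hℓM hA hat r hr Q hQ x hx (by rw [hxc]; exact hcord) hxfix
  · -- `Q` a pole of `ū` : the chart `ū'`
    have hQ' : grdK M A hat.c'.mem ∈ Q.toValuationSubring := by
      have h1 : grdK M A hat.c'.mem = (grdK M A hat.c.mem)⁻¹ :=
        eq_inv_of_mul_eq_one_right hKK'
      rw [h1]
      exact (Q.toValuationSubring.mem_or_inv_mem _).resolve_left hQ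
    have hat' := ffip_atlas_swap M A hat
    have hr' := ffip_isRed_swap M A hℓM hA hat r hr
    obtain ⟨c', hc', hc'ord⟩ := ffla_exists_unif hat.c'.sepK Q hQ'
    have hK'K : grdK M A hat.c'.mem * grdK M A hat.c.mem = 1 := by rw [mul_comm]; exact hKK'
    obtain ⟨d, hd⟩ := ffla_pow_mem hK'K hc'
    obtain ⟨m, hmd, hmm₀⟩ : ∃ m, d ≤ m ∧ m₀ ≤ m := ⟨max d m₀, le_max_left _ _, le_max_right _ _⟩
    have hcc' : c' * grdK M A hat.c.mem ^ m * grdK M A hat.c'.mem ^ m = c' := by
      rw [mul_assoc, ← mul_pow, hKK', one_pow, mul_one]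
    obtain ⟨x, -, hx', hxc, hxfix⟩ := hm₀ m hmm₀ (c' * grdK M A hat.c.mem ^ m)
      (hd _ hmd) (by rw [hcc']; exact hc')
    obtain ⟨u'O, hu'O⟩ : ∃ y : ↥(grdO M A), (y : modularFunctionFieldBar M) = grdQ M hat.c'.mem :=
      ⟨⟨grdQ M hat.c'.mem, grdQ_mem_grdO M A hat.c'.mem⟩, rfl⟩
    have hu'Ored : grdRed M A u'O = grdK M A hat.c'.mem := by
      have : u'O = ⟨grdQ M hat.c'.mem, grdQ_mem_grdO M A hat.c'.mem⟩ := Subtype.ext hu'O
      rw [this, grdRed_grdQ]
    obtain ⟨t₀, ht₀def⟩ : ∃ t₀ : ↥(grdO M A), t₀ = x * u'O ^ m := ⟨_, rfl⟩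
    have e : (t₀ : modularFunctionFieldBar M) =
        (x : modularFunctionFieldBar M) * grdQ M hat.c'.mem ^ m := by
      rw [ht₀def, ← hu'O]; push_cast; rfl
    have hred : grdRed M A t₀ = c' := by
      rw [ht₀def, map_mul, map_pow, hxc, hu'Ored, hcc']
    have ht₀ : GrdIsInt M A (grdQ M (ffip_atlas_swap M A hat).c.mem)
        (t₀ : modularFunctionFieldBar M) := by
      rw [e]; exact hx'
    refine ffla_lift_chart M A hℓM hA (ffip_atlas_swap M A hat) r hr' Q hQ' t₀ ht₀ ?_ ?_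
    · rw [hred]
      exact hc'ord
    · intro σ hσ
      rw [e, smul_mul', smul_pow', hxfix σ hσ, ffipG_coord]

end Main

end Fermat.Agent.FF
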