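import Mathlib
import Fermat.Agent.FF.IntInst.LiftAll
import Fermat.Agent.FF.IntLRed

/-!
# Program FF, leaf B4, field `lift_place` for EVERY `Q`, from the `onto` literal of `FfirModel`

Owner: helper5.  Namespace `Fermat.Agent.FF`, prefix `ffla`.

`FflaOntoRR` is the field `onto` of helper26's `FfirModel` for `X₀(M)` verbatim (`O := grdO M A`,
`red := grdRed M A`, `Dinf := ffilPolar hat.c.sepQ`, the group = the inertia group acting through
`ffipG M σ = arithmeticGalois (modularFunctionFieldFull M) σ`).  `ffla_lift_place_rr` turns it into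
the field `lift_place` (helper27's `ffil_mem_rr_iff`, helper17's `fflr_lattice_iff` and
`fflr_mapDomain_polar` translate between the Riemann–Roch form and the chart-ring form).
-/

set_option autoImplicit false
set_option linter.unusedSectionVars false
set_option linter.unusedVariables false
set_option synthInstance.maxHeartbeats 400000

noncomputable section

namespace Fermat.Agent.FF

open ModularCurve AlgebraicCurve IsLocalRing Polynomial Fermat.Agent.S18 Fermat.Agent.S24
  Fermat.Agent.G Fermat.Agent.S05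

variable (M : ℕ) [NeZero M] {ℓ : ℕ} [Fact ℓ.Prime]
variable (A : ValuationSubring (AlgebraicClosure ℚ))
variable {τ τ' : LaurentSeries ℤ}

/-- the field `onto` of `FfirModel` for `X₀(M)` (with its inertia-fixed clause) -/
def FflaOntoRR (hat : GrdAtlas M A τ τ')
    (r : Place (AlgebraicClosure ℚ) (modularFunctionFieldBar M) →
      Place (ResidueField A) (modularFunctionFieldFullC (ResidueField A) M)) : Prop :=
  ∃ m0 : ℕ, ∀ m : ℕ, m0 ≤ m →
    ∀ c ∈ riemannRochSpace (m • Finsupp.mapDomain r (ffilPolar hat.c.sepQ)),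
      ∃ x : ↥(grdO M A),
        (x : modularFunctionFieldBar M) ∈ riemannRochSpace (m • ffilPolar hat.c.sepQ) ∧
        grdRed M A x = c ∧
        ∀ σ : AlgebraicClosure ℚ ≃ₐ[ℚ] AlgebraicClosure ℚ, σ ∈ A.inertiaSubgroupIn ℚ →
          ffipG M σ • (x : modularFunctionFieldBar M) = x

theorem ffla_onto_of_rr (hℓM : ¬ ℓ ∣ M) (hA : A.LiesOverPrime ℓ) (hat : GrdAtlas M A τ τ')
    (r : Place (AlgebraicClosure ℚ) (modularFunctionFieldBar M) →
      Place (ResidueField A) (modularFunctionFieldFullC (ResidueField A) M))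
    (hr : GrdIsRed M A hat.c.mem hat.c'.mem r) (h : FflaOntoRR M A hat r) :
    FflaOnto M A hat := by
  obtain ⟨m0, hm0⟩ := h
  refine ⟨m0, fun m hm c hc hc' => ?_⟩
  have hcrr : c ∈ riemannRochSpace (m • Finsupp.mapDomain r (ffilPolar hat.c.sepQ)) := by
    rw [fflr_mapDomain_polar M A r hℓM hA hat hr, ← natCast_zsmul]
    exact (ffil_mem_rr_iff hat.c.sepK (grda_grdK_mul M A hat) m c).2 ⟨hc, hc'⟩
  obtain ⟨x, hx, hxc, hxfix⟩ := hm0 m hm c hcrr
  rw [← natCast_zsmul] at hx
  obtain ⟨h1, h2⟩ := (fflr_lattice_iff M A hℓM hA hat m (x : modularFunctionFieldBar M)).2 ⟨x.2, hx⟩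
  exact ⟨x, h1, h2, hxc, hxfix⟩

/-- **`lift_place` for EVERY `Q`**, from the `onto` literal. -/
theorem ffla_lift_place_rr (hℓM : ¬ ℓ ∣ M) (hA : A.LiesOverPrime ℓ) (hat : GrdAtlas M A τ τ')
    (r : Place (AlgebraicClosure ℚ) (modularFunctionFieldBar M) →
      Place (ResidueField A) (modularFunctionFieldFullC (ResidueField A) M))
    (hr : GrdIsRed M A hat.c.mem hat.c'.mem r) (h : FflaOntoRR M A hat r)
    (Q : Place (ResidueField A) (modularFunctionFieldFullC (ResidueField A) M)) :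
    ∃ P, r P = Q ∧ ∀ σ : AlgebraicClosure ℚ ≃ₐ[ℚ] AlgebraicClosure ℚ,
      σ ∈ A.inertiaSubgroupIn ℚ → ffipG M σ • P = P :=
  ffla_lift_place M A hℓM hA hat r hr (ffla_onto_of_rr M A hℓM hA hat r hr h) Q

/-- the insurance route: `ffio_onto` in Riemann–Roch form (WITHOUT the fixed clause). -/
theorem ffla_onto_rr_of_ffio (hℓM : ¬ ℓ ∣ M) (hA : A.LiesOverPrime ℓ) (hat : GrdAtlas M A τ τ')
    (r : Place (AlgebraicClosure ℚ) (modularFunctionFieldBar M) →
      Place (ResidueField A) (modularFunctionFieldFullC (ResidueField A) M))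
    (hr : GrdIsRed M A hat.c.mem hat.c'.mem r)
    (hfin0 : Module.Finite (ResidueField A) ↥(riemannRochSpace
      (0 : Divisor (ResidueField A) (modularFunctionFieldFullC (ResidueField A) M)))) :
    ∃ m0 : ℕ, ∀ m : ℕ, m0 ≤ m →
      ∀ c ∈ riemannRochSpace (m • Finsupp.mapDomain r (ffilPolar hat.c.sepQ)),
        ∃ x : ↥(grdO M A),
          (x : modularFunctionFieldBar M) ∈ riemannRochSpace (m • ffilPolar hat.c.sepQ) ∧
          grdRed M A x = c := by
  obtain ⟨m0, hm0⟩ := ffio_onto M A hℓM hA hat hfin0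
  refine ⟨m0, fun m hm c hc => ?_⟩
  rw [fflr_mapDomain_polar M A r hℓM hA hat hr, ← natCast_zsmul] at hc
  obtain ⟨hc1, hc2⟩ := (ffil_mem_rr_iff hat.c.sepK (grda_grdK_mul M A hat) m c).1 hc
  obtain ⟨x, hx1, hx2, hxc⟩ := hm0 m hm c hc1 hc2
  refine ⟨x, ?_, hxc⟩
  rw [← natCast_zsmul]
  exact ((fflr_lattice_iff M A hℓM hA hat m (x : modularFunctionFieldBar M)).1 ⟨hx1, hx2⟩).2

end Fermat.Agent.FF
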