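import Mathlib
import Fermat.Agent.FF.IntInst.Gal
import Fermat.Agent.FF.GenusEq

/-!
# Program FF (S19), leaf B4: the integral model `FfirModel` for `X₀(M)`

Owner: helper27.  Prefix `ffii`.

`ffii_model` : helper26's abstract integral model (`FF/IntRR.lean`) instantiated with
`K = ℚ̄`, `A = 𝔸`, `F = F_ℚ̄(M)`, `Fk = F_k(M)`, `O = grdO M 𝔸`, `red = grdRed M 𝔸`, `r` the place
reduction of G/Red, `ρ = ffigRho M 𝔸` (the inertia group acting coefficientwise) and
`Dinf = ffilPolar hat.c.sepQ` (the polar divisor of the chart coordinate).  Every field which is not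
proved in `Gal.lean` enters as a hypothesis carrying the literal of its producer:
* `hRed`, `hdiv`   : helper8 `FF/IntInst/Red.lean` (`ffie_red`, `ffie_div`);
* `honto`          : helper26 `FF/Interp.lean` (`ffin_onto`);
* `hsmul`, `hredsmul`, `hrsmul`, `hlift` : helper6 `FF/IntPts.lean` (P1)-(P3).

`ffii_bundle` : the numerical data the core needs next to the model: Riemann–Roch on both fibres
with THE SAME genus, all places of degree one, infinitely many constants / places, `deg Dinf > 0`.
-/

set_option autoImplicit false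
set_option linter.unusedSectionVars false
set_option linter.unusedVariables false
set_option linter.style.haveILetI false

noncomputable section

namespace Fermat.Agent.FF

open AlgebraicCurve ModularCurve IsLocalRing Fermat.Agent.G Fermat.Agent.S24 Fermat.Agent.S18
  Fermat.Agent.V.RR

variable (M : ℕ) [NeZero M] {ℓ : ℕ} [Fact ℓ.Prime] (A : ValuationSubring (AlgebraicClosure ℚ))
variable {τ τ' : LaurentSeries ℤ}

/-- **THE INTEGRAL MODEL FOR `X₀(M)`.** -/
theorem ffii_model (hat : GrdAtlas M A τ τ')
    (r : Place (AlgebraicClosure ℚ) (modularFunctionFieldBar M) →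
      Place (ResidueField A) (modularFunctionFieldFullC (ResidueField A) M))
    (hRed : FfirRed A (grdO M A) (grdRed M A))
    (hdiv : FfirDiv (A := A) (grdRed M A) r)
    (m0 : ℕ)
    (honto : ∀ m : ℕ, m0 ≤ m →
      ∀ c ∈ riemannRochSpace (m • Finsupp.mapDomain r (ffilPolar hat.c.sepQ)),
      ∃ x : ↥(grdO M A), ((x : ↥(grdO M A)) : modularFunctionFieldBar M) ∈
          riemannRochSpace (m • ffilPolar hat.c.sepQ) ∧ grdRed M A x = c ∧
        ∀ σ : ↥(A.inertiaSubgroupIn ℚ),
          ffigRho M A σ • ((x : ↥(grdO M A)) : modularFunctionFieldBar M) = x)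
    (hsmul : ∀ (σ : ↥(A.inertiaSubgroupIn ℚ)) (x : modularFunctionFieldBar M),
      x ∈ grdO M A → ffigRho M A σ • x ∈ grdO M A)
    (hredsmul : ∀ (σ : ↥(A.inertiaSubgroupIn ℚ)) (x : ↥(grdO M A)),
      grdRed M A ⟨ffigRho M A σ • ((x : ↥(grdO M A)) : modularFunctionFieldBar M),
        hsmul σ x x.2⟩ = grdRed M A x)
    (hrsmul : ∀ (σ : ↥(A.inertiaSubgroupIn ℚ))
      (P : Place (AlgebraicClosure ℚ) (modularFunctionFieldBar M)), r (ffigRho M A σ • P) = r P)
    (hlift : ∀ Q : Place (ResidueField A) (modularFunctionFieldFullC (ResidueField A) M),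
      ∃ P : Place (AlgebraicClosure ℚ) (modularFunctionFieldBar M), r P = Q ∧
        ∀ σ : ↥(A.inertiaSubgroupIn ℚ), ffigRho M A σ • P = P) :
    FfirModel A (grdO M A) (grdRed M A) r (ffigRho M A) (ffilPolar hat.c.sepQ) m0 where
  toRed := hRed
  div := hdiv
  onto := honto
  base_mem := ffig_base_mem M A
  base_res := ffig_base_res M A
  smul_mem := hsmul
  red_smul := hredsmul
  r_smul := hrsmul
  Dinf_nonneg := ffil_polar_nonneg hat.c.sepQ
  Dinf_fixed := ffig_Dinf_fixed M A hat.c.mem hat.c.sepQ
  lift_place := hlift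

/-- a type in which every finset misses a point is infinite. -/
theorem ffii_infinite_of_forall_exists {α : Type*} (h : ∀ T : Finset α, ∃ x, x ∉ T) :
    Infinite α := by
  by_contra hfin
  rw [not_infinite_iff_finite] at hfin
  cases nonempty_fintype α
  obtain ⟨x, hx⟩ := h Finset.univ
  exact hx (Finset.mem_univ x)

/-- **the numerical bundle** next to the model: Riemann–Roch on both fibres with the same genus
`g = genusFF ℚ̄ F_ℚ̄(M)`, all places of degree one, infinitely many places on the special fibre,
`deg Dinf = [F : ℚ̄(u)] > 0`. -/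
theorem ffii_bundle (hℓM : ¬ ℓ ∣ M) (hA : A.LiesOverPrime ℓ) (hat : GrdAtlas M A τ τ') :
    V27RR (AlgebraicClosure ℚ) (modularFunctionFieldBar M)
        (genusFF (AlgebraicClosure ℚ) (modularFunctionFieldBar M)) ∧
      V27RR (ResidueField A) (modularFunctionFieldFullC (ResidueField A) M)
        (genusFF (AlgebraicClosure ℚ) (modularFunctionFieldBar M)) ∧
      (∀ P : Place (AlgebraicClosure ℚ) (modularFunctionFieldBar M), P.deg = 1) ∧
      (∀ Q : Place (ResidueField A) (modularFunctionFieldFullC (ResidueField A) M), Q.deg = 1) ∧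
      Infinite (ResidueField A) ∧
      Infinite (Place (ResidueField A) (modularFunctionFieldFullC (ResidueField A) M)) ∧
      Infinite (Place (AlgebraicClosure ℚ) (modularFunctionFieldBar M)) ∧
      0 < Divisor.degree (ffilPolar hat.c.sepQ) ∧
      Divisor.degree (ffilPolar hat.c.sepQ) =
        (Module.finrank (IntermediateField.adjoin (AlgebraicClosure ℚ) {grdQ M hat.c.mem})
          (modularFunctionFieldBar M) : ℤ) := by
  haveI : IsAlgClosed (ResidueField A) := grd_isAlgClosed_residue A
  have hin : ReductionInputsModL A M := grd_reductionInputs_of_atlas M A hℓM hA hat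
  have RR := ffg_rr_bar M
  have RRk := ffg_rr_modL' M A hℓM hA hin
  haveI : Infinite (ResidueField A) := IsAlgClosed.instInfinite
  refine ⟨RR, RRk, hat.c.sepQ.deg_eq_one, hat.c.sepK.deg_eq_one, inferInstance, ?_, ?_, ?_,
    ffil_degree_polar hat.c.sepQ⟩
  · exact ffii_infinite_of_forall_exists (fun T => ffg_exists_place_not_mem RRk T)
  · exact ffii_infinite_of_forall_exists (fun T => ffg_exists_place_not_mem RR T)
  · rw [ffil_degree_polar hat.c.sepQ]
    haveI := hat.c.sepQ.finite
    exact_mod_cast Module.finrank_pos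

end Fermat.Agent.FF
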