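import Mathlib
import Fermat.Agent.FF.IntRR
import Fermat.Agent.FF.GenusEq
import Fermat.Agent.G.Red.GaussKer

/-!
# Program FF, leaf B4 (first half) : the Gauss ring of `X₀(N)` satisfies the reduction axioms
(prefix `ffie_`)

Owner: helper8.

`A ⊂ ℚ̄` a valuation subring over `ℓ ∤ N`, `O = grdO N A` the Gauss ring of `F = F_ℚ̄(N)`,
`red = grdRed N A : O → F_k(N)`.

* `ffie_red` : `FfirRed A (grdO N A) (grdRed N A)` (helper26's axioms (O1)-(O3)) :
  constants (`S18Good.const`), kernel (`grdRed_eq_zero_iff`), scaling (`ggn_normal'`);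
* `ffie_div` : `FfirDiv (grdRed N A) r` (axiom (O4)) for every `r` with
  `IsPlaceReductionAlong A (residue A) N r`.
-/

set_option autoImplicit false
set_option linter.unusedSectionVars false
set_option linter.unusedVariables false
set_option linter.style.haveILetI false
set_option synthInstance.maxHeartbeats 400000

noncomputable section

namespace Fermat.Agent.FF

open ModularCurve AlgebraicCurve IsLocalRing Fermat.Agent.S18 Fermat.Agent.S24 Fermat.Agent.G

variable (N : ℕ) [NeZero N] {ℓ : ℕ} [Fact ℓ.Prime]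
variable (A : ValuationSubring (AlgebraicClosure ℚ))

/-- the constant `a ∈ A`, as an element of `F`, is the generic fibre of the good series `C a`. -/
theorem ffie_const_gen (a : A) :
    algebraMap (AlgebraicClosure ℚ) (modularFunctionFieldBar N) (a : AlgebraicClosure ℚ) =
      (S18Good.const (N := N) a).gen := by
  apply Subtype.ext
  show algebraMap (AlgebraicClosure ℚ) (LaurentSeries (AlgebraicClosure ℚ))
    (a : AlgebraicClosure ℚ) = coeffMap A.subtype (HahnSeries.C a)
  symm
  rw [algebraMap_laurentSeries_eq_single]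
  exact coeffMap_single _ _ _

theorem ffie_const_mem (a : A) :
    algebraMap (AlgebraicClosure ℚ) (modularFunctionFieldBar N) (a : AlgebraicClosure ℚ) ∈
      grdO N A := by
  rw [ffie_const_gen]
  exact grd_gen_mem _

theorem ffie_red_const (a : A) :
    grdRed N A ⟨algebraMap (AlgebraicClosure ℚ) (modularFunctionFieldBar N)
      (a : AlgebraicClosure ℚ), ffie_const_mem N A a⟩ =
      algebraMap (ResidueField A) (modularFunctionFieldFullC (ResidueField A) N)
        (residue A a) := by
  have h1 : (⟨algebraMap (AlgebraicClosure ℚ) (modularFunctionFieldBar N)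
      (a : AlgebraicClosure ℚ), ffie_const_mem N A a⟩ : ↥(grdO N A)) =
      ⟨(S18Good.const (N := N) a).gen, grd_gen_mem _⟩ := Subtype.ext (ffie_const_gen N A a)
  rw [h1, grdRed_gen]
  apply Subtype.ext
  show coeffMap (residue A) (HahnSeries.C a) =
    algebraMap (ResidueField A) (LaurentSeries (ResidueField A)) (residue A a)
  rw [algebraMap_laurentSeries_eq_single]
  exact coeffMap_single _ _ _

/-- a quotient of good series with nonzero reductions lies in the Gauss ring and reduces to the
quotient of the reductions. -/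
theorem ffie_quot_mem {y₁ y₂ : LaurentSeries A} (h₁ : S18Good N A y₁) (h₂ : S18Good N A y₂)
    (hs₂ : h₂.spec ≠ 0) {x : modularFunctionFieldBar N} (hx : x * h₂.gen = h₁.gen) :
    x ∈ grdO N A :=
  ⟨y₁, y₂, h₁, h₂, fun h0 => hs₂ (Subtype.ext h0), congrArg Subtype.val hx⟩

theorem ffie_red_quot {y₁ y₂ : LaurentSeries A} (h₁ : S18Good N A y₁) (h₂ : S18Good N A y₂)
    (hs₂ : h₂.spec ≠ 0) {x : modularFunctionFieldBar N} (hx : x * h₂.gen = h₁.gen) :
    grdRed N A ⟨x, ffie_quot_mem N A h₁ h₂ hs₂ hx⟩ = h₁.spec / h₂.spec := by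
  apply Subtype.ext
  rw [grdRed_eq N A ⟨x, ffie_quot_mem N A h₁ h₂ hs₂ hx⟩ y₁ y₂ (fun h0 => hs₂ (Subtype.ext h0))
    (congrArg Subtype.val hx)]
  rfl

/-- **(O1)-(O3)** for the Gauss ring of `X₀(N)`. -/
theorem ffie_red (hℓN : ¬ ℓ ∣ N) (hA : A.LiesOverPrime ℓ) :
    FfirRed A (grdO N A) (grdRed N A) where
  const_mem := ffie_const_mem N A
  red_const := ffie_red_const N A
  ker := by
    intro x hx
    obtain ⟨π, x', hπ, hxx⟩ := (grdRed_eq_zero_iff N A hℓN hA x).mp hx
    exact ⟨π, hπ, x', hxx⟩
  scale := by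
    intro f hf
    obtain ⟨c, u₁, u₂, h₁, h₂, hc, hs₁, hs₂, hfu⟩ := ggn_normal' N A hℓN hA f hf
    have hcF : algebraMap (AlgebraicClosure ℚ) (modularFunctionFieldBar N) c ≠ 0 :=
      (map_ne_zero_iff _
        (algebraMap (AlgebraicClosure ℚ) (modularFunctionFieldBar N)).injective).mpr hc
    have hx : (algebraMap (AlgebraicClosure ℚ) (modularFunctionFieldBar N) c⁻¹ * f) * h₂.gen =
        h₁.gen := by
      rw [mul_assoc, hfu, ← mul_assoc, ← map_mul, inv_mul_cancel₀ hc, map_one, one_mul]
    refine ⟨c⁻¹, inv_ne_zero hc, ffie_quot_mem N A h₁ h₂ hs₂ hx, ?_⟩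
    rw [ffie_red_quot N A h₁ h₂ hs₂ hx]
    exact div_ne_zero hs₁ hs₂

/-- **(O4)** the divisor formula for every element of the Gauss ring. -/
theorem ffie_div
    {r : Place (AlgebraicClosure ℚ) (modularFunctionFieldBar N) →
      Place (ResidueField A) (modularFunctionFieldFullC (ResidueField A) N)}
    (hr : IsPlaceReductionAlong A (residue A) N r) :
    FfirDiv (A := A) (grdRed N A) r := by
  haveI := Fermat.Agent.V.v27dv_isCurveOver_modular N
  intro x hx D hD Q
  obtain ⟨a, b, ha, hb, hb0, hxab⟩ := x.2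
  have hs₂ : hb.spec ≠ 0 := fun h0 => hb0 (congrArg Subtype.val h0)
  have hxg : (x : modularFunctionFieldBar N) * hb.gen = ha.gen := Subtype.ext hxab
  have hred : grdRed N A x = ha.spec / hb.spec := by
    have := ffie_red_quot N A ha hb hs₂ hxg
    rw [← this]
  have hs₁ : ha.spec ≠ 0 := by
    intro h0
    apply hx
    rw [hred, h0, zero_div]
  rw [hred]
  exact ffg_mapDomain_quot N A hr ha hb hs₁ hs₂ (x : modularFunctionFieldBar N) 1 one_ne_zero
    (by rw [map_one, one_mul]; exact hxg) D hD Q

end Fermat.Agent.FF
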