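import Mathlib
import Fermat.Agent.FF.IntInst.Main
import Fermat.Agent.FF.IntInst.Red
import Fermat.Agent.FF.IntLift
import Fermat.Agent.FF.IntVal
import Fermat.Agent.FF.InertiaRes
import Fermat.Agent.FF.IntInst.LiftAllRR

/-!
# Program FF (S19), leaf B4: plugging the producers into `ffii_model`

Owner: helper27.  Prefix `ffii`.

Everything except the `onto` field of `FfirModel` for `X₀(M)` is a theorem here:
* `ffii_hW`         : helper19's inertia-fixed lifts of residues, in the `baseAut (ρ σ)` spelling;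
* `ffii_weak_lift`  : helper6's inertia-fixed lifts of the places off the finite bad set
  (`ffipBad`), in the `∃ S : Finset _` spelling of helper26's `ffin_onto_model`;
* `ffii_hval`       : helper12's values `ffiv_val'` (verbatim);
* `ffii_model_of_onto` : `onto` (as a hypothesis, in the literal of the field) ⟹ the whole
  `FfirModel` (helper8 `ffie_red`/`ffie_div`, helper6 `ffip_smul_mem_grdO`/`ffip_red_smul`/
  `ffip_inertia'`, helper5 `ffla_lift_place_rr` for the strong `lift_place`).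
-/

set_option autoImplicit false
set_option linter.unusedSectionVars false
set_option linter.unusedVariables false
set_option linter.style.haveILetI false

noncomputable section

namespace Fermat.Agent.FF

open AlgebraicCurve ModularCurve IsLocalRing Fermat.Agent.G Fermat.Agent.S24 Fermat.Agent.S18
  Fermat.Agent.V.RR

variable (M : ℕ) [NeZero M] {ℓ : ℕ} [Fact ℓ.Prime] (A : ValuationSubring (AlgebraicClosure ℚ))
variable {τ τ' : LaurentSeries ℤ}

/-- helper6's `ffipG` is the value of `ffigRho`. -/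
theorem ffii_rho_eq (σ : ↥(A.inertiaSubgroupIn ℚ)) :
    ffigRho M A σ = ffipG M (σ : AlgebraicClosure ℚ ≃ₐ[ℚ] AlgebraicClosure ℚ) := rfl

/-- **`hW`** : inertia-fixed lifts of residues (helper19), in the spelling of `ffin_onto_model`. -/
theorem ffii_hW (hA : A.LiesOverPrime ℓ) (κ : ResidueField A) :
    ∃ a : A, residue A a = κ ∧ ∀ σ : ↥(A.inertiaSubgroupIn ℚ),
      SemilinearAut.baseAut (ffigRho M A σ) (a : AlgebraicClosure ℚ) = a := by
  obtain ⟨a, h1, h2⟩ := ffiw_exists_fixed_lift A hA κ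
  exact ⟨a, h1, fun σ => h2 σ.1 σ.2⟩

/-- **the weak `hlift`** : off the finite bad set every place of the special fibre has an
inertia-fixed lift (helper6 + helper19). -/
theorem ffii_weak_lift (hℓM : ¬ ℓ ∣ M) (hA : A.LiesOverPrime ℓ) (hat : GrdAtlas M A τ τ')
    (r : Place (AlgebraicClosure ℚ) (modularFunctionFieldBar M) →
      Place (ResidueField A) (modularFunctionFieldFullC (ResidueField A) M))
    (hr : GrdIsRed M A hat.c.mem hat.c'.mem r) :
    ∃ S : Finset (Place (ResidueField A) (modularFunctionFieldFullC (ResidueField A) M)),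
      ∀ Q, Q ∉ S → ∃ P : Place (AlgebraicClosure ℚ) (modularFunctionFieldBar M), r P = Q ∧
        ∀ σ : ↥(A.inertiaSubgroupIn ℚ), ffigRho M A σ • P = P := by
  classical
  refine ⟨(ffip_bad_finite M A hat).toFinset, fun Q hQ => ?_⟩
  have hQ' : Q ∉ ffipBad M A hat := fun h => hQ ((ffip_bad_finite M A hat).mem_toFinset.2 h)
  obtain ⟨P, hP, hfix⟩ := ffip_exists_fixed_lift M A hℓM hA hat r hr
    (↑(A.inertiaSubgroupIn ℚ) : Set (AlgebraicClosure ℚ ≃ₐ[ℚ] AlgebraicClosure ℚ))
    (fun σ hσ => Fermat.Agent.S05.isInertial_of_mem_inertiaSubgroupIn A σ hσ)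
    (fun c => by
      obtain ⟨a, h1, h2⟩ := ffiw_exists_fixed_lift A hA c
      exact ⟨a, h1, fun σ hσ => h2 σ hσ⟩) Q hQ'
  exact ⟨P, hP, fun σ => hfix σ.1 σ.2⟩

/-- **`onto` ⟹ the integral model.** -/
theorem ffii_model_of_onto (hℓM : ¬ ℓ ∣ M) (hA : A.LiesOverPrime ℓ) (hat : GrdAtlas M A τ τ')
    (r : Place (AlgebraicClosure ℚ) (modularFunctionFieldBar M) →
      Place (ResidueField A) (modularFunctionFieldFullC (ResidueField A) M))
    (hr : GrdIsRed M A hat.c.mem hat.c'.mem r) (m0 : ℕ)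
    (honto : ∀ m : ℕ, m0 ≤ m →
      ∀ c ∈ riemannRochSpace (m • Finsupp.mapDomain r (ffilPolar hat.c.sepQ)),
      ∃ x : ↥(grdO M A), ((x : ↥(grdO M A)) : modularFunctionFieldBar M) ∈
          riemannRochSpace (m • ffilPolar hat.c.sepQ) ∧ grdRed M A x = c ∧
        ∀ σ : ↥(A.inertiaSubgroupIn ℚ),
          ffigRho M A σ • ((x : ↥(grdO M A)) : modularFunctionFieldBar M) = x) :
    FfirModel A (grdO M A) (grdRed M A) r (ffigRho M A) (ffilPolar hat.c.sepQ) m0 := by
  have hin : ∀ σ : ↥(A.inertiaSubgroupIn ℚ), Fermat.Agent.S05.IsInertial A σ.1 := fun σ =>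
    Fermat.Agent.S05.isInertial_of_mem_inertiaSubgroupIn A σ.1 σ.2
  refine ffii_model M A hat r (ffie_red M A hℓM hA)
    (ffie_div M A (grd_isPlaceReductionAlong M A hℓM hA hat r hr)) m0 honto
    (fun σ x hx => ffip_smul_mem_grdO M (hin σ) hx)
    (fun σ x => ffip_red_smul M (hin σ) x)
    (fun σ P => ffip_inertia' M hℓM hA hat r hr σ.2 P)
    (fun Q => ?_)
  obtain ⟨P, hP, hfix⟩ := ffla_lift_place_rr M A hℓM hA hat r hr
    ⟨m0, fun m hm c hc => by
      obtain ⟨x, hx, hxc, hxf⟩ := honto m hm c hc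
      exact ⟨x, hx, hxc, fun σ hσ => hxf ⟨σ, hσ⟩⟩⟩ Q
  exact ⟨P, hP, fun σ => hfix σ.1 σ.2⟩

end Fermat.Agent.FF
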