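import Mathlib
import Fermat.Agent.FF.IntInst.Plug
import Fermat.Agent.FF.InterpTop

/-!
# Program FF (S19), leaf B4: THE INTEGRAL MODEL OF `X₀(M)` at `ℓ ∤ M` - hypothesis-free

Owner: helper27.  Prefix `ffii`.

`ffii_onto`  : the `onto` field of `FfirModel` for `X₀(M)` (helper26's `ffin_onto_model` fed with
helper8's `ffie_red`/`ffie_div`, helper6's weak lift `ffip_exists_fixed_lift` off `ffipBad`,
helper12's `ffiv_val'`, helper19's `ffiw_exists_fixed_lift`, and `ffii_bundle`).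

`ffii_main`  : for an atlas `hat : GrdAtlas M 𝔸 τ τ'` at `ℓ ∤ M`, `𝔸` over `ℓ`:
`∃ r m0, GrdIsRed … r ∧ FfirModel 𝔸 (grdO M 𝔸) (grdRed M 𝔸) r (ffigRho M 𝔸) (ffilPolar hat.c.sepQ) m0`
with NO other hypothesis.  `ffii_main'` is the same for a given `r` and exposes `m0 = 2 g`.
-/

set_option autoImplicit false
set_option linter.unusedSectionVars false
set_option linter.unusedVariables false
set_option linter.style.haveILetI false

noncomputable section

namespace Fermat.Agent.FF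

open AlgebraicCurve ModularCurve IsLocalRing Fermat.Agent.G Fermat.Agent.S24 Fermat.Agent.S18
  Fermat.Agent.V.RR

variable (M : ℕ) [NeZero M] {ℓ : ℕ} [Fact ℓ.Prime] (A : ValuationSubring (AlgebraicClosure ℚ))
variable {τ τ' : LaurentSeries ℤ}

/-- **the `onto` field for `X₀(M)`** : for `m ≥ 2 g`, `L(m D_∞) ∩ grdO` reduces ONTO
`L(m r_*D_∞)`, with inertia-fixed lifts. -/
theorem ffii_onto (hℓM : ¬ ℓ ∣ M) (hA : A.LiesOverPrime ℓ) (hat : GrdAtlas M A τ τ')
    (r : Place (AlgebraicClosure ℚ) (modularFunctionFieldBar M) →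
      Place (ResidueField A) (modularFunctionFieldFullC (ResidueField A) M))
    (hr : GrdIsRed M A hat.c.mem hat.c'.mem r) (m : ℕ)
    (hm : 2 * genusFF (AlgebraicClosure ℚ) (modularFunctionFieldBar M) ≤ m)
    (c : modularFunctionFieldFullC (ResidueField A) M)
    (hc : c ∈ riemannRochSpace (m • Finsupp.mapDomain r (ffilPolar hat.c.sepQ))) :
    ∃ x : ↥(grdO M A), ((x : ↥(grdO M A)) : modularFunctionFieldBar M) ∈
        riemannRochSpace (m • ffilPolar hat.c.sepQ) ∧ grdRed M A x = c ∧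
      ∀ σ : ↥(A.inertiaSubgroupIn ℚ),
        ffigRho M A σ • ((x : ↥(grdO M A)) : modularFunctionFieldBar M) = x := by
  obtain ⟨RR, RRk, hdeg, hdegk, hinf, -, -, hdpos, -⟩ := ffii_bundle M A hℓM hA hat
  haveI := hinf
  refine ffin_onto_model (ffie_red M A hℓM hA)
    (ffie_div M A (grd_isPlaceReductionAlong M A hℓM hA hat r hr)) RR RRk hdeg hdegk
    (ffigRho M A) (ffilPolar hat.c.sepQ) (ffil_polar_nonneg _)
    (ffig_Dinf_fixed M A hat.c.mem hat.c.sepQ)
    (ffii_weak_lift M A hℓM hA hat r hr)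
    (fun m x hx P hP => ffiv_val' M A hℓM hA hat r hr m x hx P hP)
    (ffii_hW M A hA) (2 * genusFF (AlgebraicClosure ℚ) (modularFunctionFieldBar M)) ?_ m hm c hc
  push_cast
  nlinarith [hdpos]

/-- **THE INTEGRAL MODEL OF `X₀(M)`** for a given place reduction `r`, with `m0 = 2 g`. -/
theorem ffii_main' (hℓM : ¬ ℓ ∣ M) (hA : A.LiesOverPrime ℓ) (hat : GrdAtlas M A τ τ')
    (r : Place (AlgebraicClosure ℚ) (modularFunctionFieldBar M) →
      Place (ResidueField A) (modularFunctionFieldFullC (ResidueField A) M))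
    (hr : GrdIsRed M A hat.c.mem hat.c'.mem r) :
    FfirModel A (grdO M A) (grdRed M A) r (ffigRho M A) (ffilPolar hat.c.sepQ)
      (2 * genusFF (AlgebraicClosure ℚ) (modularFunctionFieldBar M)) :=
  ffii_model_of_onto M A hℓM hA hat r hr _
    (fun m hm c hc => ffii_onto M A hℓM hA hat r hr m hm c hc)

/-- **THE INTEGRAL MODEL OF `X₀(M)`**, hypothesis-free given an atlas. -/
theorem ffii_main (hℓM : ¬ ℓ ∣ M) (hA : A.LiesOverPrime ℓ) (hat : GrdAtlas M A τ τ') :
    ∃ (r : Place (AlgebraicClosure ℚ) (modularFunctionFieldBar M) →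
      Place (ResidueField A) (modularFunctionFieldFullC (ResidueField A) M)) (m0 : ℕ),
      GrdIsRed M A hat.c.mem hat.c'.mem r ∧
      FfirModel A (grdO M A) (grdRed M A) r (ffigRho M A) (ffilPolar hat.c.sepQ) m0 := by
  obtain ⟨r, hr⟩ := grd_exists_isRed M A hℓM hA hat
  exact ⟨r, _, hr, ffii_main' M A hℓM hA hat r hr⟩

end Fermat.Agent.FF
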